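import Fermat.Agent.RT.Selmer.Choice
import Fermat.Agent.TW.SelmerBoundMain

/-!
# The sharp Selmer bound holds
-/

set_option autoImplicit false

noncomputable section

namespace FLTAgent.RT

open FLTAgent.Deformation FLTAgent.TW

/-- **The sharp Selmer bound.** -/
theorem selmerAddBound {k : Type} [Field k] [Finite k] {p : ℕ} [Fact p.Prime] [CharP k p]
    (hp : p ≠ 2) (rb : Gal →* Mat k) : SelmerAddBound p rb := by
  intro Smin h A hA L hLB hLZ hLfin hLdim S
  let : Algebra (ZMod p) k := ZMod.algebra k p
  exact selmerSumConcl_of_monoBound (monoBound hp) hp h A hA L hLB hLZ hLfin hLdim S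

end FLTAgent.RT
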