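import Fermat.Agent.RT.Selmer.Loc
import Fermat.Agent.RT.Gen.Surjective
import Fermat.Agent.TW.Local.Main
import Fermat.Prelude.Def_GaloisRep_StrictOrdinary

/-!
# The choice of Taylor–Wiles primes with auxiliary primes

For a local condition at `p` of dimension at most `4 - e`: `g + ∑ h0 + e ≤ r`, and every deformation
ring is generated by the coordinates at the auxiliary primes, the given extra elements and `g`
variables.
-/

set_option autoImplicit false
set_option linter.unusedSectionVars false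

noncomputable section

open IsLocalRing Matrix Polynomial FLTAgent.Deformation FLTAgent.TW FLTAgent.RTIrr

namespace FLTAgent.RT

open Gen

/-- The sharp Selmer bound: Taylor–Wiles primes such that the Selmer space is smaller than the
number of primes plus three by at least the total defect of the local spaces. -/
def SelmerAddBound {k : Type} [Field k] (p : ℕ) (rb : Gal →* Mat k) : Prop :=
  ∀ (Smin : Finset ℕ), ResidualHyp p rb Smin →
  ∀ (A : ℕ → ValuationSubring (AlgebraicClosure ℚ)), (∀ l ∈ Smin, (A l).LiesOverPrime l) →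
  ∀ (L : ∀ l : ℕ, Submodule k ((A l).decompositionSubgroup ℚ → Mat k)),
    (∀ l ∈ Smin, adB1 rb ((A l).decompositionSubgroup ℚ) ≤ L l) →
    (∀ l ∈ Smin, L l ≤ adZ1 rb ((A l).decompositionSubgroup ℚ)) →
    (∀ l ∈ Smin, Module.Finite k (L l)) →
    (∀ l ∈ Smin, Module.finrank k (L l) ≤ if l = p then 4 else 3) →
  ∀ S : Finset ℕ, ∃ r : ℕ, ∀ n : ℕ, ∃ qv : Fin r → ℕ, Function.Injective qv ∧
      (∀ i, (qv i).Prime ∧ qv i ∉ S ∧ qv i ∉ Smin ∧ p ^ (n + 1) ∣ qv i - 1) ∧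
      (∀ i, ∀ P : ValuationSubring (AlgebraicClosure ℚ), P.LiesOverPrime (qv i) →
        ∀ φ : Gal, P.IsFrobeniusAt φ (qv i) →
          ∃ α β : k, α ≠ β ∧ (rb φ).charpoly = (X - C α) * (X - C β)) ∧
      Module.Finite k (selmer rb Smin (Finset.univ.image qv) A L) ∧
      Module.finrank k (selmer rb Smin (Finset.univ.image qv) A L) +
          ∑ l ∈ Smin, (if l = p then 4 else 3) ≤
        r + 3 + ∑ l ∈ Smin, Module.finrank k (L l)

variable {𝒪 : Type} [CommRing 𝒪] [IsDomain 𝒪] [IsDiscreteValuationRing 𝒪]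
  [IsAdicComplete (maximalIdeal 𝒪) 𝒪] [Finite (ResidueField 𝒪)]
  {ρbar : ResidualGaloisRep (ResidueField 𝒪)} {p : ℕ} [Fact p.Prime]

attribute [local instance] dualAlg

theorem residualHyp_union {rb : Gal →* Mat (ResidueField 𝒪)} {Smin : Finset ℕ}
    (h : ResidualHyp p rb Smin) {T : Finset ℕ} (hT : ∀ q ∈ T, q.Prime) :
    ResidualHyp p rb (Smin ∪ T) where
  level := h.level
  split := h.split
  irred := h.irred
  noHalf := h.noHalf
  det := h.det
  mem_p := Finset.mem_union_left _ h.mem_p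
  prime q hq := (Finset.mem_union.mp hq).elim (h.prime q) (hT q)
  unramified q hq hn := h.unramified q hq fun hm => hn (Finset.mem_union_left _ hm)

/-- **Taylor–Wiles primes with auxiliary primes and coordinates.** -/
theorem exists_twPrimes_locVar (hp2 : p ≠ 2) [CharP (ResidueField 𝒪) p] {Smin : Finset ℕ}
    (h : ResidualHyp p (barMatrix ρbar) Smin) (hbound : SelmerAddBound p (barMatrix ρbar))
    (hirr : ¬ HasStableLine
      (mapRep (algebraMap (ResidueField 𝒪) (AlgebraicClosure (ResidueField 𝒪))) (barMatrix ρbar))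
      Set.univ)
    (hram : ∀ q : ℕ, q ∈ Smin → q ≠ p → ¬ ρbar.IsUnramifiedAt q)
    (Cp : GaloisRepAdic (DualNumber (ResidueField 𝒪)) → Prop) (e : ℕ)
    (hCp : ∀ P : ValuationSubring (AlgebraicClosure ℚ), P.LiesOverPrime p →
      ∃ S : Submodule (ResidueField 𝒪) (P.decompositionSubgroup ℚ → Mat (ResidueField 𝒪)),
        adB1 (barMatrix ρbar) (P.decompositionSubgroup ℚ) ≤ S ∧
        S ≤ adZ1 (barMatrix ρbar) (P.decompositionSubgroup ℚ) ∧
        Module.Finite (ResidueField 𝒪) S ∧ Module.finrank (ResidueField 𝒪) S + e ≤ 4 ∧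
        ∀ (N : Gal →* Mat (DualNumber (ResidueField 𝒪))) (hN : MatCont N),
          (∀ σ, (N σ).map TrivSqZeroExt.fst = barMatrix ρbar σ) →
          (∀ σ, Matrix.trace (liftCocycle (barMatrix ρbar) N σ) = 0) →
          Cp (matRep N hN) →
          (fun g : P.decompositionSubgroup ℚ => liftCocycle (barMatrix ρbar) N g) ∈ S)
    {ι : Type} [Fintype ι] {qs : ι → ℕ} (hinj : Function.Injective qs)
    (hqs : ∀ i, (qs i).Prime ∧ qs i ∉ Smin)
    (P : ι → ValuationSubring (AlgebraicClosure ℚ)) (hP : ∀ i, (P i).LiesOverPrime (qs i))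
    (φ : ι → Gal) (hφ : ∀ i, (P i).IsFrobeniusAt (φ i) (qs i)) (Ds : ι → LocalDatum 𝒪)
    (hDs : ∀ i, IsBaseAt (Ds i) (barMatrix ρbar (φ i))) (S : Finset ℕ) :
    ∃ r g : ℕ, g + ∑ i, (Ds i).h0 + e ≤ r ∧ ∀ n : ℕ, ∃ qv : Fin r → ℕ, Function.Injective qv ∧
      (∀ j, (qv j).Prime ∧ qv j ∉ S ∧ qv j ∉ Smin ∧ (∀ i, qs i ≠ qv j) ∧
        p ^ (n + 1) ∣ qv j - 1) ∧
      (∀ j, ∀ Q : ValuationSubring (AlgebraicClosure ℚ), Q.LiesOverPrime (qv j) →
        ∀ ψ : Gal, Q.IsFrobeniusAt ψ (qv j) →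
          ∃ α β : ResidueField 𝒪, α ≠ β ∧
            (barMatrix ρbar ψ).charpoly = (X - C α) * (X - C β)) ∧
      ∀ {𝒟 : ∀ ⦃A : Type⦄ [CommRing A] [IsLocalRing A] [Algebra 𝒪 A], GaloisRepAdic A → Prop},
        GaloisRep.IsDeformationCondition 𝒪 𝒟 →
        (∀ ρ : GaloisRepAdic (DualNumber (ResidueField 𝒪)), 𝒟 ρ → ρ.DetIsCyclotomic p ∧
          (∀ q : ℕ, q.Prime → q ∉ Smin → (∀ i, qs i ≠ q) → q ∉ Finset.univ.image qv →
            ρ.IsUnramifiedAt q) ∧
          ∀ q ∈ Smin, q.Prime → q ≠ p → ρ.IsUnipotentOnInertiaAt q) →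
        ∀ (D : GaloisRep.DeformationRingData 𝒪 ρbar 𝒟) {M : Gal →* Mat D.R} {hM : MatCont M},
          D.ρ.IsEquiv (matRep M hM) → ∀ (Cs : ∀ i, LocalCoord (Ds i) M (P i) (φ i))
          {κ : Type} [Finite κ] (u : κ → D.R), (∀ j, u j ∈ maximalIdeal D.R) →
          (∀ (f : D.R →ₐ[𝒪] DualNumber (ResidueField 𝒪))
            (hf : IsLocalHom (f : D.R →+* DualNumber (ResidueField 𝒪)))
            (N : Gal →* Mat (DualNumber (ResidueField 𝒪))) (hN : MatCont N),
            (∀ j, f (u j) = 0) →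
            (D.ρ.baseChangeAlong (f : D.R →+* DualNumber (ResidueField 𝒪)) hf).IsEquiv
              (matRep N hN) →
            𝒟 (matRep N hN) → Cp (matRep N hN)) →
          ∃ γ : MvPowerSeries (LocVar ι (κ ⊕ Fin g)) 𝒪 →ₐ[𝒪] D.R, Function.Surjective γ ∧
            (∀ i k, γ (locCoord i k) = (Cs i).v k) ∧
            ∀ j, γ (MvPowerSeries.X (Sum.inr (Sum.inl j))) = u j := by
  classical
  set rb := barMatrix ρbar
  set T := Finset.univ.image qs with hT
  have hTp : ∀ q ∈ T, q.Prime := by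
    intro q hq
    obtain ⟨i, -, rfl⟩ := Finset.mem_image.mp hq
    exact (hqs i).1
  have h' := residualHyp_union h hTp
  have hne : ∀ i, qs i ≠ p := fun i hi => (hqs i).2 (hi ▸ h.mem_p)
  have hnS : ∀ {l}, l ∈ Smin → ∀ i, qs i ≠ l := fun {l} hl i hi => (hqs i).2 (hi ▸ hl)
  have h2 : (2 : ResidueField 𝒪) ≠ 0 := by
    intro h0
    have : ((2 : ℕ) : ResidueField 𝒪) = 0 := by exact_mod_cast h0
    rw [CharP.cast_eq_zero_iff (ResidueField 𝒪) p] at this
    exact hp2 ((Nat.prime_dvd_prime_iff_eq Fact.out Nat.prime_two).mp this)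
  -- the places
  have hex : ∀ l : ℕ, ∃ A : ValuationSubring (AlgebraicClosure ℚ), (∀ i, qs i = l → A = P i) ∧
      (l ∈ Smin → A.LiesOverPrime l ∧ (l ≠ p → ∃ σ ∈ A.inertiaSubgroupIn ℚ, rb σ ≠ 1)) := by
    intro l
    by_cases hl : l ∈ Smin
    · by_cases hlp : l = p
      · obtain ⟨A, hA⟩ := Frobenius.exists_liesOverPrime (h.prime l hl)
        exact ⟨A, fun i hi => absurd hi (hnS hl i), fun _ => ⟨hA, fun h' => absurd hlp h'⟩⟩
      · have := hram l hl hlp
        simp only [ResidualGaloisRep.IsUnramifiedAt] at this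
        push Not at this
        obtain ⟨A, hA, σ, hσ, hσ1⟩ := this
        refine ⟨A, fun i hi => absurd hi (hnS hl i), fun _ => ⟨hA, fun _ => ⟨σ, hσ, fun h1 => hσ1 ?_⟩⟩⟩
        rwa [show rb σ = repMatrix ρbar.ρ (residualBasis ρbar) σ from rfl, repMatrix_apply,
          ← LinearMap.toMatrix_one (residualBasis ρbar),
          (LinearMap.toMatrix _ _).injective.eq_iff] at h1
    · by_cases hi : ∃ i, qs i = l
      · obtain ⟨i, rfl⟩ := hi
        exact ⟨P i, fun j hj => (congrArg P (hinj hj)).symm, fun h' => absurd h' hl⟩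
      · exact ⟨⊤, fun i hi' => absurd ⟨i, hi'⟩ hi, fun h' => absurd h' hl⟩
  choose A hAP hA using hex
  have hAq : ∀ i, A (qs i) = P i := fun i => hAP _ i rfl
  -- the local spaces
  have hloc : ∀ l : ℕ, ∃ L : Submodule (ResidueField 𝒪)
      ((A l).decompositionSubgroup ℚ → Mat (ResidueField 𝒪)),
      (l ∉ Smin → L = adB1 rb ((A l).decompositionSubgroup ℚ)) ∧ (l ∈ Smin →
      adB1 rb ((A l).decompositionSubgroup ℚ) ≤ L ∧
      L ≤ adZ1 rb ((A l).decompositionSubgroup ℚ) ∧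
      Module.Finite (ResidueField 𝒪) L ∧
      Module.finrank (ResidueField 𝒪) L + (if l = p then e else 0) ≤ (if l = p then 4 else 3) ∧
      ∀ (N : Gal →* Mat (DualNumber (ResidueField 𝒪))) (hN : MatCont N),
        (∀ σ, (N σ).map TrivSqZeroExt.fst = rb σ) →
        (∀ σ, Matrix.trace (liftCocycle rb N σ) = 0) →
        ((l = p → Cp (matRep N hN)) ∧ (l ≠ p → (matRep N hN).IsUnipotentOnInertiaAt l)) →
        (fun g : (A l).decompositionSubgroup ℚ => liftCocycle rb N g) ∈ L) := by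
    intro l
    by_cases hl : l ∈ Smin
    · by_cases hlp : l = p
      · subst hlp
        obtain ⟨L, h1, h2, h3, h4, h5⟩ := hCp (A l) (hA l hl).1
        refine ⟨L, fun h' => absurd hl h', fun _ => ⟨h1, h2, h3, ?_,
          fun N hN e1 e2 e3 => h5 N hN e1 e2 (e3.1 rfl)⟩⟩
        rw [if_pos rfl, if_pos rfl]; exact h4
      · obtain ⟨L, h1, h2, h3, h4, h5⟩ := unipotent_cocycle_bound hp2 rb h.level h.det
          (h.prime l hl) hlp (A l) (hA l hl).1 ((hA l hl).2 hlp)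
        refine ⟨L, fun h' => absurd hl h', fun _ => ⟨h1, h2, h3, ?_,
          fun N hN e1 e2 e3 => h5 N hN e1 e2 (e3.2 hlp)⟩⟩
        rw [if_neg hlp, if_neg hlp, add_zero]; exact h4
    · exact ⟨_, fun _ => rfl, fun h' => absurd h' hl⟩
  choose L hLq hL using hloc
  have hB1Z1 : ∀ l, adB1 rb ((A l).decompositionSubgroup ℚ) ≤
      adZ1 rb ((A l).decompositionSubgroup ℚ) := fun l => by
    rintro _ ⟨X, hX, rfl⟩
    refine ⟨fun a b => ?_, fun a => ?_, ?_⟩
    · simp [adDelta, adAct, map_mul, _root_.mul_inv_rev, mul_sub, sub_mul, mul_assoc]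
    · show Matrix.trace (adAct rb a X - X) = 0
      rw [adAct, Matrix.trace_sub, Matrix.trace_mul_cycle, rb_inv_mul, one_mul, sub_self]
    · obtain ⟨F, hF, hF1⟩ := h.level
      refine ⟨F, hF, fun a s hs => ?_⟩
      have h0 : rb (s : Gal)⁻¹ = 1 := hF1 _ fun x hx => by
        show (s : Gal).symm x = x
        rw [AlgEquiv.symm_apply_eq, hs x hx]
      simp [adDelta, adAct, map_mul, _root_.mul_inv_rev, hF1 s hs, h0]
  have hqi : ∀ {l}, l ∈ Smin ∪ T → l ∈ Smin ∨ ∃ i, qs i = l := fun {l} hl => by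
    rcases Finset.mem_union.mp hl with hl | hl
    · exact Or.inl hl
    · obtain ⟨i, -, hi⟩ := Finset.mem_image.mp hl
      exact Or.inr ⟨i, hi⟩
  have hunr : ∀ i, ∀ σ ∈ (A (qs i)).inertiaSubgroupIn ℚ, rb σ = 1 := fun i =>
    h.unramified _ (hqs i).1 (hqs i).2 _ (by rw [hAq]; exact hP i)
  have hφ' : ∀ i, (A (qs i)).IsFrobeniusAt (φ i) (qs i) := fun i => by rw [hAq]; exact hφ i
  have hAT : ∀ l ∈ Smin ∪ T, (A l).LiesOverPrime l := fun l hl => by
    rcases hqi hl with hl | ⟨i, rfl⟩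
    · exact (hA l hl).1
    · rw [hAq]; exact hP i
  have hLB : ∀ l ∈ Smin ∪ T, adB1 rb ((A l).decompositionSubgroup ℚ) ≤ L l := fun l hl => by
    rcases hqi hl with hl | ⟨i, rfl⟩
    · exact (hL l hl).1
    · rw [hLq _ (hqs i).2]
  have hLdim : ∀ l ∈ Smin ∪ T, Module.finrank (ResidueField 𝒪) (L l) ≤ if l = p then 4 else 3 :=
    fun l hl => by
    rcases hqi hl with hl | ⟨i, rfl⟩
    · exact le_trans (Nat.le_add_right _ _) (hL l hl).2.2.2.1
    · rw [if_neg (hne i), hLq _ (hqs i).2]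
      exact le_trans (Nat.le_add_right _ _) (finrank_adB1_add_adH0 rb _).le
  have hLfin : ∀ l ∈ Smin ∪ T, Module.Finite (ResidueField 𝒪) (L l) := fun l hl => by
    rcases hqi hl with hl | ⟨i, rfl⟩
    · exact (hL l hl).2.2.1
    · rw [hLq _ (hqs i).2, adB1]; infer_instance
  obtain ⟨r, hr⟩ := hbound (Smin ∪ T) h' A hAT L hLB
    (fun l hl => by
      rcases hqi hl with hl | ⟨i, rfl⟩
      · exact (hL l hl).2.1
      · rw [hLq _ (hqs i).2]; exact hB1Z1 _)
    hLfin hLdim S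
  let Good : ℕ → (Fin r → ℕ) → Prop := fun n qv => Function.Injective qv ∧
    (∀ j, (qv j).Prime ∧ qv j ∉ S ∧ qv j ∉ Smin ∪ T ∧ p ^ (n + 1) ∣ qv j - 1) ∧
    (∀ j, ∀ Q : ValuationSubring (AlgebraicClosure ℚ), Q.LiesOverPrime (qv j) →
      ∀ ψ : Gal, Q.IsFrobeniusAt ψ (qv j) →
        ∃ α β : ResidueField 𝒪, α ≠ β ∧ (rb ψ).charpoly = (X - C α) * (X - C β))
  obtain ⟨g, hg, hg'⟩ := exists_g_of_selmer_add_le h2 h' hirr hLB hinj
    (fun i => ⟨Finset.mem_union_right _ (Finset.mem_image_of_mem _ (Finset.mem_univ i)), hne i,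
      hAT _ (Finset.mem_union_right _ (Finset.mem_image_of_mem _ (Finset.mem_univ i)))⟩)
    hφ' hunr hDs (fun i => hLq _ (hqs i).2) hLdim (r := r) (Good := Good) fun n => by
      obtain ⟨qv, a, b, c, d, e⟩ := hr n
      exact ⟨qv, ⟨a, b, c⟩, d, e⟩
  have he : e ≤ 4 - Module.finrank (ResidueField 𝒪) (L p) := by
    have := (hL p h.mem_p).2.2.2.1
    rw [if_pos rfl, if_pos rfl] at this
    omega
  refine ⟨r, g, by omega, fun n => ?_⟩
  obtain ⟨qv, ⟨hqinj, hqv, hfrob⟩, hfin, hdim⟩ := hg' n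
  refine ⟨qv, hqinj, fun j => ⟨(hqv j).1, (hqv j).2.1,
    fun hm => (hqv j).2.2.1 (Finset.mem_union_left _ hm),
    fun i hi => (hqv j).2.2.1 (Finset.mem_union_right _ (Finset.mem_image.mpr ⟨i, Finset.mem_univ _, hi⟩)),
    (hqv j).2.2.2⟩, hfrob, fun {𝒟} h𝒟 hcond D {M hM} hequiv Cs {κ} _ u hu hCpu => ?_⟩
  let C' : ∀ i, LocalCoord (Ds i) M (A (qs i)) (φ i) := fun i =>
    { g := (Cs i).g
      v := (Cs i).v
      τ := (Cs i).τ
      mem_maximalIdeal := (Cs i).mem_maximalIdeal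
      isNorm := (Cs i).isNorm
      phi_eq := (Cs i).phi_eq
      tau_mem := by rw [hAq]; exact (Cs i).tau_mem
      tau_eq := (Cs i).tau_eq
      gen := fun m σ hσ => (Cs i).gen m σ (by rwa [hAq] at hσ)
      det_phi := (Cs i).det_phi
      comm := (Cs i).comm
      det_s := (Cs i).det_s }
  exact exists_surjective_locVar_extra hp2 h' hirr hLB g hfin hdim h𝒟
    (fun N hN hD => (hcond _ hD).1)
    (fun N hN hD l hl hls hlQ => (hcond _ hD).2.1 l hl (fun hm => hls (Finset.mem_union_left _ hm))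
      (fun i hi => hls (Finset.mem_union_right _ (Finset.mem_image.mpr ⟨i, Finset.mem_univ _, hi⟩)))
      hlQ)
    D hequiv qs (fun i => ⟨(hqs i).1, by rw [hAq]; exact hP i⟩) φ hφ' Ds C' u hu
    fun l hl => (hqi hl).symm.imp_right fun hlS f hf N hN e1 e2 e3 e4 e5 =>
      (hL l hlS).2.2.2.2 N hN e1 e2 ⟨fun _ => hCpu f hf N hN e3 e4 e5,
        fun hlp => (hcond _ e5).2.2 l hlS (h.prime l hlS) hlp⟩

end FLTAgent.RT
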