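import Fermat.Agent.RT.Selmer.Choice

/-!
# Taylor–Wiles primes serving several conditions at `p`

The choice of `RT.Selmer.Choice` for a family of local conditions at `p`: the same primes, with
one number of free variables for each condition.
-/

set_option autoImplicit false
set_option linter.unusedSectionVars false

noncomputable section

open IsLocalRing Matrix Polynomial FLTAgent.Deformation FLTAgent.TW FLTAgent.RTIrr

namespace FLTAgent.RT

open Gen

/-- **Monotonicity of the Selmer space in one local condition.** Enlarging the space at `p`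
costs at most the growth of that space. -/
theorem finrank_selmer_le_of_le {k : Type} [Field k] {rb : Gal →* Mat k} {Smin Q : Finset ℕ}
    {A : ℕ → ValuationSubring (AlgebraicClosure ℚ)} {p : ℕ} (hp : p ∈ Smin)
    {L L' : ∀ l : ℕ, Submodule k ((A l).decompositionSubgroup ℚ → Mat k)}
    (hne : ∀ l, l ≠ p → L l = L' l) (hle : L' p ≤ L p) (hfin : Module.Finite k (L p))
    [Module.Finite k (selmer rb Smin Q A L')] :
    Module.Finite k (selmer rb Smin Q A L) ∧
      Module.finrank k (selmer rb Smin Q A L) + Module.finrank k (L' p) ≤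
        Module.finrank k (selmer rb Smin Q A L') + Module.finrank k (L p) := by
  let res : selmer rb Smin Q A L →ₗ[k] L p :=
    { toFun := fun c => ⟨fun g => c.1 g, c.2.2.2.2.1 p hp⟩
      map_add' := fun _ _ => rfl
      map_smul' := fun _ _ => rfl }
  let T' : Submodule k (L p) := (L' p).comap (L p).subtype
  have hT' : Module.finrank k T' = Module.finrank k (L' p) :=
    (Submodule.comapSubtypeEquivOfLe hle).finrank_eq
  let ψ : selmer rb Smin Q A L →ₗ[k] (L p ⧸ T') := T'.mkQ.comp res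
  have hsub : selmer rb Smin Q A L' ≤ selmer rb Smin Q A L := by
    rintro c ⟨h1, h2, h3, h4, h5⟩
    refine ⟨h1, h2, h3, fun l hl => ?_, h5⟩
    by_cases hlp : l = p
    · subst hlp; exact hle (h4 l hl)
    · rw [hne l hlp]; exact h4 l hl
  have hker : LinearMap.ker ψ = (selmer rb Smin Q A L').comap (selmer rb Smin Q A L).subtype := by
    ext c
    simp only [ψ, T', LinearMap.mem_ker, LinearMap.comp_apply, Submodule.mkQ_apply,
      Submodule.Quotient.mk_eq_zero, Submodule.mem_comap, Submodule.subtype_apply]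
    obtain ⟨c, h1, h2, h3, h4, h5⟩ := c
    refine ⟨fun hc => ⟨h1, h2, h3, fun l hl => ?_, h5⟩, fun hc => hc.2.2.2.1 p hp⟩
    by_cases hlp : l = p
    · subst hlp; exact hc
    · rw [← hne l hlp]; exact h4 l hl
  have e := Submodule.comapSubtypeEquivOfLe hsub
  have hkfin : Module.Finite k (LinearMap.ker ψ) := by
    rw [hker]; exact Module.Finite.equiv e.symm
  have : Module.Finite k (selmer rb Smin Q A L) := by
    refine Module.finite_def.mpr (Submodule.fg_of_fg_map_of_fg_inf_ker ψ ?_ ?_)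
    · exact IsNoetherian.noetherian _
    · rw [top_inf_eq]; exact Module.Finite.iff_fg.mp hkfin
  refine ⟨this, ?_⟩
  have h0 := LinearMap.finrank_range_add_finrank_ker ψ
  have h1 := Submodule.finrank_le (LinearMap.range ψ)
  have h2 := Submodule.finrank_quotient_add_finrank T'
  rw [hker, e.finrank_eq] at h0
  omega

variable {𝒪 : Type} [CommRing 𝒪] [IsDomain 𝒪] [IsDiscreteValuationRing 𝒪]
  [IsAdicComplete (maximalIdeal 𝒪) 𝒪] [Finite (ResidueField 𝒪)]
  {ρbar : ResidualGaloisRep (ResidueField 𝒪)} {p : ℕ} [Fact p.Prime]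

attribute [local instance] dualAlg

/-- **Taylor–Wiles primes serving several local conditions at `p` at once.** -/
theorem exists_twPrimes_locVar_family (hp2 : p ≠ 2) [CharP (ResidueField 𝒪) p] {Smin : Finset ℕ}
    (h : ResidualHyp p (barMatrix ρbar) Smin) (hbound : SelmerAddBound p (barMatrix ρbar))
    (hirr : ¬ HasStableLine
      (mapRep (algebraMap (ResidueField 𝒪) (AlgebraicClosure (ResidueField 𝒪))) (barMatrix ρbar))
      Set.univ)
    (hram : ∀ q : ℕ, q ∈ Smin → q ≠ p → ¬ ρbar.IsUnramifiedAt q)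
    {β : Type} (Cp : β → GaloisRepAdic (DualNumber (ResidueField 𝒪)) → Prop) (e : β → ℕ)
    (hCp : ∀ b, ∀ P : ValuationSubring (AlgebraicClosure ℚ), P.LiesOverPrime p →
      ∃ S : Submodule (ResidueField 𝒪) (P.decompositionSubgroup ℚ → Mat (ResidueField 𝒪)),
        adB1 (barMatrix ρbar) (P.decompositionSubgroup ℚ) ≤ S ∧
        S ≤ adZ1 (barMatrix ρbar) (P.decompositionSubgroup ℚ) ∧
        Module.Finite (ResidueField 𝒪) S ∧ Module.finrank (ResidueField 𝒪) S + e b ≤ 4 ∧
        ∀ (N : Gal →* Mat (DualNumber (ResidueField 𝒪))) (hN : MatCont N),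
          (∀ σ, (N σ).map TrivSqZeroExt.fst = barMatrix ρbar σ) →
          (∀ σ, Matrix.trace (liftCocycle (barMatrix ρbar) N σ) = 0) →
          Cp b (matRep N hN) →
          (fun g : P.decompositionSubgroup ℚ => liftCocycle (barMatrix ρbar) N g) ∈ S)
    {ι : Type} [Fintype ι] {qs : ι → ℕ} (hinj : Function.Injective qs)
    (hqs : ∀ i, (qs i).Prime ∧ qs i ∉ Smin)
    (P : ι → ValuationSubring (AlgebraicClosure ℚ)) (hP : ∀ i, (P i).LiesOverPrime (qs i))
    (φ : ι → Gal) (hφ : ∀ i, (P i).IsFrobeniusAt (φ i) (qs i)) (Ds : ι → LocalDatum 𝒪)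
    (hDs : ∀ i, IsBaseAt (Ds i) (barMatrix ρbar (φ i))) (S : Finset ℕ) :
    ∃ (r : ℕ) (g : β → ℕ), (∀ b, g b + ∑ i, (Ds i).h0 + e b ≤ r) ∧ ∀ n : ℕ, ∃ qv : Fin r → ℕ, Function.Injective qv ∧
      (∀ j, (qv j).Prime ∧ qv j ∉ S ∧ qv j ∉ Smin ∧ (∀ i, qs i ≠ qv j) ∧
        p ^ (n + 1) ∣ qv j - 1) ∧
      (∀ j, ∀ Q : ValuationSubring (AlgebraicClosure ℚ), Q.LiesOverPrime (qv j) →
        ∀ ψ : Gal, Q.IsFrobeniusAt ψ (qv j) →
          ∃ α β : ResidueField 𝒪, α ≠ β ∧
            (barMatrix ρbar ψ).charpoly = (X - C α) * (X - C β)) ∧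
      ∀ (b : β) {𝒟 : ∀ ⦃A : Type⦄ [CommRing A] [IsLocalRing A] [Algebra 𝒪 A], GaloisRepAdic A → Prop},
        GaloisRep.IsDeformationCondition 𝒪 𝒟 →
        (∀ ρ : GaloisRepAdic (DualNumber (ResidueField 𝒪)), 𝒟 ρ → ρ.DetIsCyclotomic p ∧
          (∀ q : ℕ, q.Prime → q ∉ Smin → (∀ i, qs i ≠ q) → q ∉ Finset.univ.image qv →
            ρ.IsUnramifiedAt q) ∧
          ∀ q ∈ Smin, q.Prime → q ≠ p → ρ.IsUnipotentOnInertiaAt q) →
        ∀ (D : GaloisRep.DeformationRingData 𝒪 ρbar 𝒟) {M : Gal →* Mat D.R} {hM : MatCont M},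
          D.ρ.IsEquiv (matRep M hM) → ∀ (Cs : ∀ i, LocalCoord (Ds i) M (P i) (φ i))
          {κ : Type} [Finite κ] (u : κ → D.R), (∀ j, u j ∈ maximalIdeal D.R) →
          (∀ (f : D.R →ₐ[𝒪] DualNumber (ResidueField 𝒪))
            (hf : IsLocalHom (f : D.R →+* DualNumber (ResidueField 𝒪)))
            (N : Gal →* Mat (DualNumber (ResidueField 𝒪))) (hN : MatCont N),
            (∀ j, f (u j) = 0) →
            (D.ρ.baseChangeAlong (f : D.R →+* DualNumber (ResidueField 𝒪)) hf).IsEquiv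
              (matRep N hN) →
            𝒟 (matRep N hN) → Cp b (matRep N hN)) →
          ∃ γ : MvPowerSeries (LocVar ι (κ ⊕ Fin (g b))) 𝒪 →ₐ[𝒪] D.R, Function.Surjective γ ∧
            (∀ i k, γ (locCoord i k) = (Cs i).v k) ∧
            ∀ j, γ (MvPowerSeries.X (Sum.inr (Sum.inl j))) = u j := by
  classical
  set rb := barMatrix ρbar
  set T := Finset.univ.image qs with hT
  have hTp : ∀ q ∈ T, q.Prime := by
    intro q hq
    obtain ⟨i, -, rfl⟩ := Finset.mem_image.mp hq
    exact (hqs i).1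
  have h' := residualHyp_union h hTp
  have hne : ∀ i, qs i ≠ p := fun i hi => (hqs i).2 (hi ▸ h.mem_p)
  have hnS : ∀ {l}, l ∈ Smin → ∀ i, qs i ≠ l := fun {l} hl i hi => (hqs i).2 (hi ▸ hl)
  have h2 : (2 : ResidueField 𝒪) ≠ 0 := by
    intro h0
    have : ((2 : ℕ) : ResidueField 𝒪) = 0 := by exact_mod_cast h0
    rw [CharP.cast_eq_zero_iff (ResidueField 𝒪) p] at this
    exact hp2 ((Nat.prime_dvd_prime_iff_eq Fact.out Nat.prime_two).mp this)
  -- the places
  have hex : ∀ l : ℕ, ∃ A : ValuationSubring (AlgebraicClosure ℚ), (∀ i, qs i = l → A = P i) ∧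
      (l ∈ Smin → A.LiesOverPrime l ∧ (l ≠ p → ∃ σ ∈ A.inertiaSubgroupIn ℚ, rb σ ≠ 1)) := by
    intro l
    by_cases hl : l ∈ Smin
    · by_cases hlp : l = p
      · obtain ⟨A, hA⟩ := Frobenius.exists_liesOverPrime (h.prime l hl)
        exact ⟨A, fun i hi => absurd hi (hnS hl i), fun _ => ⟨hA, fun h' => absurd hlp h'⟩⟩
      · have := hram l hl hlp
        simp only [ResidualGaloisRep.IsUnramifiedAt] at this
        push Not at this
        obtain ⟨A, hA, σ, hσ, hσ1⟩ := this
        refine ⟨A, fun i hi => absurd hi (hnS hl i), fun _ => ⟨hA, fun _ => ⟨σ, hσ, fun h1 => hσ1 ?_⟩⟩⟩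
        rwa [show rb σ = repMatrix ρbar.ρ (residualBasis ρbar) σ from rfl, repMatrix_apply,
          ← LinearMap.toMatrix_one (residualBasis ρbar),
          (LinearMap.toMatrix _ _).injective.eq_iff] at h1
    · by_cases hi : ∃ i, qs i = l
      · obtain ⟨i, rfl⟩ := hi
        exact ⟨P i, fun j hj => (congrArg P (hinj hj)).symm, fun h' => absurd h' hl⟩
      · exact ⟨⊤, fun i hi' => absurd ⟨i, hi'⟩ hi, fun h' => absurd h' hl⟩
  choose A hAP hA using hex
  have hAq : ∀ i, A (qs i) = P i := fun i => hAP _ i rfl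
  -- the local spaces: one family, and one space at `p` for each condition
  have hloc : ∀ l : ℕ, ∃ L0 : Submodule (ResidueField 𝒪)
      ((A l).decompositionSubgroup ℚ → Mat (ResidueField 𝒪)),
      (l ∉ Smin ∨ l = p → L0 = adB1 rb ((A l).decompositionSubgroup ℚ)) ∧ (l ∈ Smin → l ≠ p →
      adB1 rb ((A l).decompositionSubgroup ℚ) ≤ L0 ∧
      L0 ≤ adZ1 rb ((A l).decompositionSubgroup ℚ) ∧
      Module.Finite (ResidueField 𝒪) L0 ∧ Module.finrank (ResidueField 𝒪) L0 ≤ 3 ∧
      ∀ (N : Gal →* Mat (DualNumber (ResidueField 𝒪))) (hN : MatCont N),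
        (∀ σ, (N σ).map TrivSqZeroExt.fst = rb σ) →
        (∀ σ, Matrix.trace (liftCocycle rb N σ) = 0) →
        (matRep N hN).IsUnipotentOnInertiaAt l →
        (fun g : (A l).decompositionSubgroup ℚ => liftCocycle rb N g) ∈ L0) := by
    intro l
    by_cases hl : l ∈ Smin ∧ l ≠ p
    · obtain ⟨L, h1, h2, h3, h4, h5⟩ := unipotent_cocycle_bound hp2 rb h.level h.det
        (h.prime l hl.1) hl.2 (A l) (hA l hl.1).1 ((hA l hl.1).2 hl.2)
      exact ⟨L, fun h' => (h'.elim (fun a => a hl.1) hl.2).elim,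
        fun _ _ => ⟨h1, h2, h3, h4, h5⟩⟩
    · exact ⟨_, fun _ => rfl, fun h1 h2 => absurd ⟨h1, h2⟩ hl⟩
  choose L0 hL0q hL0 using hloc
  choose Sp hSB hSZ hSfin hSdim hSC using fun b => hCp b (A p) (hA p h.mem_p).1
  have hB1Z1 : ∀ l, adB1 rb ((A l).decompositionSubgroup ℚ) ≤
      adZ1 rb ((A l).decompositionSubgroup ℚ) := fun l => by
    rintro _ ⟨X, hX, rfl⟩
    refine ⟨fun a b => ?_, fun a => ?_, ?_⟩
    · simp [adDelta, adAct, map_mul, _root_.mul_inv_rev, mul_sub, sub_mul, mul_assoc]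
    · show Matrix.trace (adAct rb a X - X) = 0
      rw [adAct, Matrix.trace_sub, Matrix.trace_mul_cycle, rb_inv_mul, one_mul, sub_self]
    · obtain ⟨F, hF, hF1⟩ := h.level
      refine ⟨F, hF, fun a s hs => ?_⟩
      have h0 : rb (s : Gal)⁻¹ = 1 := hF1 _ fun x hx => by
        show (s : Gal).symm x = x
        rw [AlgEquiv.symm_apply_eq, hs x hx]
      simp [adDelta, adAct, map_mul, _root_.mul_inv_rev, hF1 s hs, h0]
  have hqi : ∀ {l}, l ∈ Smin ∪ T → l ∈ Smin ∨ ∃ i, qs i = l := fun {l} hl => by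
    rcases Finset.mem_union.mp hl with hl | hl
    · exact Or.inl hl
    · obtain ⟨i, -, hi⟩ := Finset.mem_image.mp hl
      exact Or.inr ⟨i, hi⟩
  have hunr : ∀ i, ∀ σ ∈ (A (qs i)).inertiaSubgroupIn ℚ, rb σ = 1 := fun i =>
    h.unramified _ (hqs i).1 (hqs i).2 _ (by rw [hAq]; exact hP i)
  have hφ' : ∀ i, (A (qs i)).IsFrobeniusAt (φ i) (qs i) := fun i => by rw [hAq]; exact hφ i
  have hAT : ∀ l ∈ Smin ∪ T, (A l).LiesOverPrime l := fun l hl => by
    rcases hqi hl with hl | ⟨i, rfl⟩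
    · exact (hA l hl).1
    · rw [hAq]; exact hP i
  have hL0B : ∀ l ∈ Smin ∪ T, adB1 rb ((A l).decompositionSubgroup ℚ) ≤ L0 l ∧
      L0 l ≤ adZ1 rb ((A l).decompositionSubgroup ℚ) ∧ Module.Finite (ResidueField 𝒪) (L0 l) ∧
      Module.finrank (ResidueField 𝒪) (L0 l) ≤ 3 := fun l hl => by
    rcases hqi hl with hl | ⟨i, rfl⟩
    · by_cases hlp : l = p
      · rw [hL0q l (Or.inr hlp)]
        exact ⟨le_rfl, hB1Z1 l, by rw [adB1]; infer_instance,
          le_trans (Nat.le_add_right _ _) (finrank_adB1_add_adH0 rb _).le⟩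
      · obtain ⟨h1, h2, h3, h4, -⟩ := hL0 l hl hlp
        exact ⟨h1, h2, h3, h4⟩
    · rw [hL0q _ (Or.inl (hqs i).2)]
      exact ⟨le_rfl, hB1Z1 _, by rw [adB1]; infer_instance,
        le_trans (Nat.le_add_right _ _) (finrank_adB1_add_adH0 rb _).le⟩
  obtain ⟨r, hr⟩ := hbound (Smin ∪ T) h' A hAT L0 (fun l hl => (hL0B l hl).1)
    (fun l hl => (hL0B l hl).2.1) (fun l hl => (hL0B l hl).2.2.1)
    (fun l hl => (hL0B l hl).2.2.2.trans (by split_ifs <;> omega)) S
  choose qv hqinj hqv hfrob hfin0 hdim0 using hr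
  -- the bound for each condition at `p`, at the same primes
  have hL0p : L0 p = adB1 rb ((A p).decompositionSubgroup ℚ) := hL0q p (Or.inr rfl)
  have hg : ∀ b, ∃ g : ℕ, g + ∑ i, (Ds i).h0 + e b ≤ r ∧ ∀ n,
      Module.Finite (ResidueField 𝒪)
        (selmer rb (Smin ∪ T) (Finset.univ.image (qv n)) A (Function.update L0 p (Sp b))) ∧
      Module.finrank (ResidueField 𝒪)
        (selmer rb (Smin ∪ T) (Finset.univ.image (qv n)) A (Function.update L0 p (Sp b))) ≤
          g + 3 := by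
    intro b
    set L := Function.update L0 p (Sp b) with hLdef
    have hLp : L p = Sp b := Function.update_self _ _ _
    have hLne : ∀ l, l ≠ p → L l = L0 l := fun l hl => Function.update_of_ne hl _ _
    have hsel : ∀ n, Module.Finite (ResidueField 𝒪)
          (selmer rb (Smin ∪ T) (Finset.univ.image (qv n)) A L) ∧
        Module.finrank (ResidueField 𝒪) (selmer rb (Smin ∪ T) (Finset.univ.image (qv n)) A L) +
            ∑ l ∈ Smin ∪ T, (if l = p then 4 else 3) ≤
          r + 3 + ∑ l ∈ Smin ∪ T, Module.finrank (ResidueField 𝒪) (L l) := fun n => by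
      have hpT : p ∈ Smin ∪ T := Finset.mem_union_left _ h.mem_p
      have := hfin0 n
      have := hSfin b
      obtain ⟨h1, h2⟩ := finrank_selmer_le_of_le (rb := rb) (Q := Finset.univ.image (qv n)) hpT
        (L := L) (L' := L0) (fun l hl => hLne l hl)
        (by rw [hLp, hL0p]; exact hSB b)
        (by rw [hLp]; exact hSfin b)
      refine ⟨h1, ?_⟩
      have hd := hdim0 n
      have e1 := Finset.add_sum_erase (Smin ∪ T)
        (fun l => Module.finrank (ResidueField 𝒪) (L l)) hpT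
      have e2 := Finset.add_sum_erase (Smin ∪ T)
        (fun l => Module.finrank (ResidueField 𝒪) (L0 l)) hpT
      have e3 : ∑ l ∈ (Smin ∪ T).erase p, Module.finrank (ResidueField 𝒪) (L l) =
          ∑ l ∈ (Smin ∪ T).erase p, Module.finrank (ResidueField 𝒪) (L0 l) :=
        Finset.sum_congr rfl fun l hl => by rw [hLne l (Finset.ne_of_mem_erase hl)]
      omega
    have hLB : ∀ l ∈ Smin ∪ T, adB1 rb ((A l).decompositionSubgroup ℚ) ≤ L l := fun l hl => by
      by_cases hlp : l = p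
      · subst hlp; rw [hLp]; exact hSB b
      · rw [hLne l hlp]; exact (hL0B l hl).1
    have hLdim : ∀ l ∈ Smin ∪ T, Module.finrank (ResidueField 𝒪) (L l) ≤
        if l = p then 4 else 3 := fun l hl => by
      by_cases hlp : l = p
      · subst hlp; rw [hLp, if_pos rfl]; exact le_trans (Nat.le_add_right _ _) (hSdim b)
      · rw [hLne l hlp, if_neg hlp]; exact (hL0B l hl).2.2.2
    obtain ⟨g, hg, hg'⟩ := exists_g_of_selmer_add_le h2 h' hirr hLB hinj
      (fun i => ⟨Finset.mem_union_right _ (Finset.mem_image_of_mem _ (Finset.mem_univ i)), hne i,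
        hAT _ (Finset.mem_union_right _ (Finset.mem_image_of_mem _ (Finset.mem_univ i)))⟩)
      hφ' hunr hDs (fun i => by rw [hLne _ (hne i)]; exact hL0q _ (Or.inl (hqs i).2)) hLdim
      (r := r) (Good := fun n q => q = qv n) fun n => ⟨qv n, rfl, hsel n⟩
    have := hSdim b
    refine ⟨g, by rw [hLp] at hg; omega, fun n => ?_⟩
    obtain ⟨q, rfl, hq⟩ := hg' n
    exact hq
  choose g hg hg' using hg
  refine ⟨r, g, hg, fun n => ?_⟩
  refine ⟨qv n, hqinj n, fun j => ⟨(hqv n j).1, (hqv n j).2.1,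
    fun hm => (hqv n j).2.2.1 (Finset.mem_union_left _ hm),
    fun i hi => (hqv n j).2.2.1
      (Finset.mem_union_right _ (Finset.mem_image.mpr ⟨i, Finset.mem_univ _, hi⟩)),
    (hqv n j).2.2.2⟩, hfrob n, fun b {𝒟} h𝒟 hcond D {M hM} hequiv Cs {κ} _ u hu hCpu => ?_⟩
  obtain ⟨hfin, hdim⟩ := hg' b n
  have hLB : ∀ l ∈ Smin ∪ T,
      adB1 rb ((A l).decompositionSubgroup ℚ) ≤ Function.update L0 p (Sp b) l := fun l hl => by
    by_cases hlp : l = p
    · subst hlp; rw [Function.update_self]; exact hSB b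
    · rw [Function.update_of_ne hlp]; exact (hL0B l hl).1
  let C' : ∀ i, LocalCoord (Ds i) M (A (qs i)) (φ i) := fun i =>
    { g := (Cs i).g
      v := (Cs i).v
      τ := (Cs i).τ
      mem_maximalIdeal := (Cs i).mem_maximalIdeal
      isNorm := (Cs i).isNorm
      phi_eq := (Cs i).phi_eq
      tau_mem := by rw [hAq]; exact (Cs i).tau_mem
      tau_eq := (Cs i).tau_eq
      gen := fun m σ hσ => (Cs i).gen m σ (by rwa [hAq] at hσ)
      det_phi := (Cs i).det_phi
      comm := (Cs i).comm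
      det_s := (Cs i).det_s }
  exact exists_surjective_locVar_extra hp2 h' hirr hLB (g b) hfin hdim h𝒟
    (fun N hN hD => (hcond _ hD).1)
    (fun N hN hD l hl hls hlQ => (hcond _ hD).2.1 l hl (fun hm => hls (Finset.mem_union_left _ hm))
      (fun i hi => hls (Finset.mem_union_right _ (Finset.mem_image.mpr ⟨i, Finset.mem_univ _, hi⟩)))
      hlQ)
    D hequiv qs (fun i => ⟨(hqs i).1, by rw [hAq]; exact hP i⟩) φ hφ' Ds C' u hu
    fun l hl => (hqi hl).symm.imp_right fun hlS f hf N hN e1 e2 e3 e4 e5 => by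
      by_cases hlp : l = p
      · subst hlp
        rw [Function.update_self]
        exact hSC b N hN e1 e2 (hCpu f hf N hN e3 e4 e5)
      · rw [Function.update_of_ne hlp]
        exact (hL0 l hlS hlp).2.2.2.2 N hN e1 e2 ((hcond _ e5).2.2 l hlS (h.prime l hlS) hlp)

end FLTAgent.RT
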