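import Fermat.Agent.RT.Gen.LocalCoord
import Fermat.Agent.TW.Tangent
import Fermat.Agent.TW.Local.Generation
import Fermat.Agent.TW.Local.Levels

/-!
# The Selmer bound with auxiliary primes where classes are trivial

At a prime where `ρbar` is unramified the coboundaries have dimension `3 - h0`, so the sharp
Taylor–Wiles bound leaves `r - ∑ h0` further variables.
-/

set_option autoImplicit false
set_option linter.unusedSectionVars false

noncomputable section

open IsLocalRing Matrix FLTAgent.Deformation FLTAgent.TW FLTAgent.RTIrr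

namespace FLTAgent.RT

open Gen

section Coboundaries

variable {k : Type} [Field k] {rb : Gal →* Mat k}

/-- Coboundaries and invariants have total dimension three. -/
theorem finrank_adB1_add_adH0 (rb : Gal →* Mat k) (H : Subgroup Gal) :
    Module.finrank k (adB1 rb H) + Module.finrank k (adH0 rb H) = 3 := by
  let f := (adDelta rb H).domRestrict (sl2 k)
  have h := LinearMap.finrank_range_add_finrank_ker f
  have h1 : LinearMap.range f = adB1 rb H := LinearMap.range_domRestrict _ _
  have h2 : Module.finrank k (LinearMap.ker f) = Module.finrank k (adH0 rb H) := by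
    have e : LinearMap.ker f = (adH0 rb H).comap (sl2 k).subtype := by
      ext X
      simp [f, adH0, LinearMap.mem_ker]
    rw [e]
    exact (Submodule.comapSubtypeEquivOfLe inf_le_left).finrank_eq
  rw [h1, h2, finrank_sl2] at h
  exact h

/-- The invariants of a decomposition group acting through Frobenius. -/
theorem mem_adH0_iff {q : ℕ} (hq : q.Prime) {P : ValuationSubring (AlgebraicClosure ℚ)}
    (hP : P.LiesOverPrime q) {φ : Gal} (hφ : P.IsFrobeniusAt φ q)
    (hlev : ∃ L : IntermediateField ℚ (AlgebraicClosure ℚ), FiniteDimensional ℚ L ∧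
      ∀ σ : Gal, (∀ x ∈ L, σ x = x) → rb σ = 1)
    (hunr : ∀ σ ∈ P.inertiaSubgroupIn ℚ, rb σ = 1) (X : Mat k) :
    X ∈ adH0 rb (P.decompositionSubgroup ℚ) ↔ X.trace = 0 ∧ rb φ * X = X * rb φ := by
  have key : ∀ σ : Gal, adAct rb σ X - X = 0 ↔ rb σ * X = X * rb σ := fun σ => by
    rw [sub_eq_zero, adAct]
    refine ⟨fun h => ?_, fun h => by rw [h, mul_assoc, rb_mul_inv, mul_one]⟩
    have := congrArg (· * rb σ) h
    simpa only [mul_assoc, rb_inv_mul, mul_one] using this
  have hdef : X ∈ adH0 rb (P.decompositionSubgroup ℚ) ↔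
      X.trace = 0 ∧ ∀ d : P.decompositionSubgroup ℚ, adAct rb d X - X = 0 := by
    simp [adH0, sl2, LinearMap.mem_ker, adDelta, funext_iff]
  rw [hdef]
  refine ⟨fun ⟨h1, h2⟩ => ⟨h1, (key _).mp (h2 ⟨φ, hφ.mem_decompositionSubgroup⟩)⟩,
    fun ⟨h1, h2⟩ => ⟨h1, fun d => (key _).mpr ?_⟩⟩
  obtain ⟨L₀, hL₀, hL1⟩ := hlev
  obtain ⟨L, hLf, hLn, hle⟩ := Local.exists_normal_ge L₀
  obtain ⟨m, ι, hι, hdι⟩ := Local.exists_frobenius_pow_mul hq hP hφ L d.2
  have h3 : rb ((φ ^ m * ι)⁻¹ * (d : Gal)) = 1 := hL1 _ fun x hx => by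
    rw [AlgEquiv.mul_apply, hdι x (hle hx)]
    exact (φ ^ m * ι).symm_apply_apply x
  have h4 : rb d = rb φ ^ m := by
    rw [show (d : Gal) = φ ^ m * ι * ((φ ^ m * ι)⁻¹ * d) by rw [mul_inv_cancel_left], map_mul, h3,
      mul_one, map_mul, hunr ι hι, mul_one, map_pow]
  rw [h4]
  exact Commute.pow_left h2 m

end Coboundaries

variable {𝒪 : Type} [CommRing 𝒪] [IsLocalRing 𝒪]

/-- The trace zero matrices commuting with `C`. -/
def commTraceZero {k : Type} [Field k] (C : Mat k) : Submodule k (Mat k) :=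
  sl2 k ⊓ LinearMap.ker (LinearMap.mulLeft k C - LinearMap.mulRight k C)

theorem mem_commTraceZero {k : Type} [Field k] {C X : Mat k} :
    X ∈ commTraceZero C ↔ X.trace = 0 ∧ C * X = X * C := by
  simp [commTraceZero, sl2, LinearMap.mem_ker, sub_eq_zero]

theorem finrank_commTraceZero_baseMat (h2 : (2 : ResidueField 𝒪) ≠ 0) (D : LocalDatum 𝒪) :
    Module.finrank (ResidueField 𝒪) (commTraceZero (D.baseMat (ResidueField 𝒪))) = D.h0 := by
  rcases hb : D.base with c | T
  · have e : commTraceZero (D.baseMat (ResidueField 𝒪)) = sl2 (ResidueField 𝒪) := by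
      ext X
      rw [mem_commTraceZero]
      have hC : D.baseMat (ResidueField 𝒪) * X = X * D.baseMat (ResidueField 𝒪) := by
        ext i j
        fin_cases i <;> fin_cases j <;>
          simp [LocalDatum.baseMat, hb, Matrix.mul_apply, Fin.sum_univ_two] <;> ring
      simp [hC, sl2, LinearMap.mem_ker]
    rw [e, finrank_sl2]
    simp [LocalDatum.h0, hb]
  · set k := ResidueField 𝒪
    set t := algebraMap 𝒪 k T
    let Z : Mat k := !![-t, -2 * (D.q : k); 2, t]
    have e : commTraceZero (D.baseMat k) = Submodule.span k {Z} := by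
      ext X
      rw [mem_commTraceZero, Submodule.mem_span_singleton]
      constructor
      · rintro ⟨htr, hc⟩
        rw [Matrix.trace_fin_two] at htr
        have a00 := congrFun (congrFun hc 0) 0
        have a10 := congrFun (congrFun hc 1) 0
        simp [LocalDatum.baseMat, hb, Matrix.mul_apply, Fin.sum_univ_two] at a00 a10
        have e11 : X 1 1 = -X 0 0 := by linear_combination htr
        have e00 : X 0 0 = -(X 1 0 / 2 * t) := by
          rw [div_mul_eq_mul_div, ← neg_div, eq_div_iff h2]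
          linear_combination a10 + htr
        have e01 : X 0 1 = -((D.q : k) * X 1 0) := by linear_combination -a00
        refine ⟨X 1 0 / 2, ?_⟩
        ext i j
        fin_cases i <;> fin_cases j <;> simp [Z]
        · linear_combination -e00
        · rw [e01]
          linear_combination (-(D.q : k) * X 1 0) * (div_self h2)
        · exact div_mul_cancel₀ _ h2
        · linear_combination -e11 + e00
      · rintro ⟨a, rfl⟩
        refine ⟨by simp [Z, Matrix.trace_fin_two]; ring, ?_⟩
        ext i j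
        fin_cases i <;> fin_cases j <;>
          simp [Z, t, LocalDatum.baseMat, hb, Matrix.mul_apply, Fin.sum_univ_two] <;> ring
    have hZ : Z ≠ 0 := fun h => h2 (by simpa [Z] using congrFun (congrFun h 1) 0)
    rw [e, finrank_span_singleton hZ]
    simp [LocalDatum.h0, hb]

/-- Conjugate matrices have conjugate commutants. -/
theorem finrank_commTraceZero_conj {k : Type} [Field k] {X C : Mat k} (P : (Mat k)ˣ)
    (h : X * (P : Mat k) = P * C) :
    Module.finrank k (commTraceZero X) = Module.finrank k (commTraceZero C) := by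
  let e : Mat k ≃ₗ[k] Mat k :=
    { toFun := fun Y => (↑P⁻¹ : Mat k) * Y * P
      invFun := fun Y => (P : Mat k) * Y * (↑P⁻¹ : Mat k)
      map_add' := fun Y Z => by simp [mul_add, add_mul]
      map_smul' := fun a Y => by simp [Matrix.mul_smul, Matrix.smul_mul]
      left_inv := fun Y => by simp [mul_assoc]
      right_inv := fun Y => by simp [mul_assoc] }
  have hX : X = (P : Mat k) * C * (↑P⁻¹ : Mat k) := by
    rw [← h, mul_assoc, Units.mul_inv, mul_one]
  have hmap : (commTraceZero X).map (e : Mat k →ₗ[k] Mat k) = commTraceZero C := by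
    ext Y
    constructor
    · rintro ⟨Z, hZ, rfl⟩
      obtain ⟨htr, hc⟩ := mem_commTraceZero.mp hZ
      refine mem_commTraceZero.mpr ⟨?_, ?_⟩
      · show ((↑P⁻¹ : Mat k) * Z * P).trace = 0
        rw [Matrix.trace_units_conj', htr]
      · show C * ((↑P⁻¹ : Mat k) * Z * P) = (↑P⁻¹ : Mat k) * Z * P * C
        have hC : C = (↑P⁻¹ : Mat k) * X * P := by
          rw [mul_assoc, h, ← mul_assoc, Units.inv_mul, one_mul]
        rw [hC]
        simp only [mul_assoc, Units.mul_inv_cancel_left]
        rw [← mul_assoc X, hc, mul_assoc]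
    · intro hY
      obtain ⟨htr, hc⟩ := mem_commTraceZero.mp hY
      refine ⟨e.symm Y, mem_commTraceZero.mpr ⟨?_, ?_⟩, e.apply_symm_apply Y⟩
      · show ((P : Mat k) * Y * (↑P⁻¹ : Mat k)).trace = 0
        rw [Matrix.trace_units_conj, htr]
      · show X * ((P : Mat k) * Y * (↑P⁻¹ : Mat k)) = (P : Mat k) * Y * (↑P⁻¹ : Mat k) * X
        rw [hX]
        simp only [mul_assoc, Units.inv_mul_cancel_left]
        rw [← mul_assoc C, hc, mul_assoc]
  rw [← hmap]
  exact (LinearEquiv.finrank_map_eq e _).symm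

/-- The invariants at an auxiliary prime have dimension `h0`. -/
theorem finrank_adB1_add_h0 (h2 : (2 : ResidueField 𝒪) ≠ 0)
    {rb : Gal →* Mat (ResidueField 𝒪)} {q : ℕ} (hq : q.Prime)
    {P : ValuationSubring (AlgebraicClosure ℚ)} (hP : P.LiesOverPrime q) {φ : Gal}
    (hφ : P.IsFrobeniusAt φ q)
    (hlev : ∃ L : IntermediateField ℚ (AlgebraicClosure ℚ), FiniteDimensional ℚ L ∧
      ∀ σ : Gal, (∀ x ∈ L, σ x = x) → rb σ = 1)
    (hunr : ∀ σ ∈ P.inertiaSubgroupIn ℚ, rb σ = 1) {D : LocalDatum 𝒪}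
    (hD : IsBaseAt D (rb φ)) :
    Module.finrank (ResidueField 𝒪) (adB1 rb (P.decompositionSubgroup ℚ)) + D.h0 = 3 := by
  obtain ⟨U, hU⟩ := hD
  have e : adH0 rb (P.decompositionSubgroup ℚ) = commTraceZero (rb φ) := by
    ext X
    rw [mem_adH0_iff hq hP hφ hlev hunr, mem_commTraceZero]
  rw [← finrank_commTraceZero_baseMat h2 D, ← finrank_commTraceZero_conj U hU, ← e]
  exact finrank_adB1_add_adH0 _ _

variable {p : ℕ} [Fact p.Prime]

/-- **Taylor–Wiles primes with auxiliary primes.** From the sharp Selmer bound for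
`Smin' ⊇ {qs i}` with coboundaries at the auxiliary primes: `g` variables with
`g + ∑ h0 + (slack at p) ≤ r`. -/
theorem exists_g_of_selmer_add_le {rb : Gal →* Mat (ResidueField 𝒪)} (h2 : (2 : ResidueField 𝒪) ≠ 0)
    {Smin' : Finset ℕ} (h : ResidualHyp p rb Smin')
    (hirr : ¬ HasStableLine
      (mapRep (algebraMap (ResidueField 𝒪) (AlgebraicClosure (ResidueField 𝒪))) rb) Set.univ)
    {A : ℕ → ValuationSubring (AlgebraicClosure ℚ)}
    {L : ∀ l : ℕ, Submodule (ResidueField 𝒪)
      ((A l).decompositionSubgroup ℚ → Mat (ResidueField 𝒪))}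
    (hLB : ∀ l ∈ Smin', adB1 rb ((A l).decompositionSubgroup ℚ) ≤ L l)
    {ι : Type} [Fintype ι] {qs : ι → ℕ} (hinj : Function.Injective qs)
    (hqs : ∀ i, qs i ∈ Smin' ∧ qs i ≠ p ∧ (A (qs i)).LiesOverPrime (qs i))
    {φ : ι → Gal} (hφ : ∀ i, (A (qs i)).IsFrobeniusAt (φ i) (qs i))
    (hunr : ∀ i, ∀ σ ∈ (A (qs i)).inertiaSubgroupIn ℚ, rb σ = 1)
    {Ds : ι → LocalDatum 𝒪} (hDs : ∀ i, IsBaseAt (Ds i) (rb (φ i)))
    (hLq : ∀ i, L (qs i) = adB1 rb ((A (qs i)).decompositionSubgroup ℚ))
    (hLdim : ∀ l ∈ Smin', Module.finrank (ResidueField 𝒪) (L l) ≤ if l = p then 4 else 3)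
    {r : ℕ} {Good : ℕ → (Fin r → ℕ) → Prop}
    (hsel : ∀ n : ℕ, ∃ qv : Fin r → ℕ, Good n qv ∧
      Module.Finite (ResidueField 𝒪) (selmer rb Smin' (Finset.univ.image qv) A L) ∧
      Module.finrank (ResidueField 𝒪) (selmer rb Smin' (Finset.univ.image qv) A L) +
          ∑ l ∈ Smin', (if l = p then 4 else 3) ≤
        r + 3 + ∑ l ∈ Smin', Module.finrank (ResidueField 𝒪) (L l)) :
    ∃ g : ℕ, g + ∑ i, (Ds i).h0 + (4 - Module.finrank (ResidueField 𝒪) (L p)) ≤ r ∧
      ∀ n : ℕ, ∃ qv : Fin r → ℕ, Good n qv ∧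
        Module.Finite (ResidueField 𝒪) (selmer rb Smin' (Finset.univ.image qv) A L) ∧
        Module.finrank (ResidueField 𝒪) (selmer rb Smin' (Finset.univ.image qv) A L) ≤ g + 3 := by
  classical
  set c := ∑ i, (Ds i).h0 + (4 - Module.finrank (ResidueField 𝒪) (L p))
  have hgain : ∑ l ∈ Smin', Module.finrank (ResidueField 𝒪) (L l) + c ≤
      ∑ l ∈ Smin', (if l = p then 4 else 3) := by
    set gap : ℕ → ℕ := fun l => (if l = p then 4 else 3) - Module.finrank (ResidueField 𝒪) (L l)
    have hp_nmem : p ∉ Finset.univ.image qs := by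
      simp only [Finset.mem_image, not_exists, not_and]
      exact fun i _ hi => (hqs i).2.1 hi
    have hsub : insert p (Finset.univ.image qs) ⊆ Smin' :=
      Finset.insert_subset h.mem_p (Finset.image_subset_iff.mpr fun i _ => (hqs i).1)
    have hle : c ≤ ∑ l ∈ Smin', gap l := by
      refine le_trans ?_ (Finset.sum_le_sum_of_subset hsub)
      rw [Finset.sum_insert hp_nmem, Finset.sum_image fun i _ j _ e => hinj e, add_comm]
      have h1 : ∑ i, (Ds i).h0 ≤ ∑ i, gap (qs i) := Finset.sum_le_sum fun i _ => by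
        have := finrank_adB1_add_h0 h2 (h.prime _ (hqs i).1) (hqs i).2.2 (hφ i) h.level (hunr i)
          (hDs i)
        have hL : Module.finrank (ResidueField 𝒪) (L (qs i)) + (Ds i).h0 = 3 := by
          rw [hLq i]; exact this
        show (Ds i).h0 ≤ (if qs i = p then 4 else 3) - _
        rw [if_neg (hqs i).2.1, ← hL, Nat.add_sub_cancel_left]
      have h2' : gap p = 4 - Module.finrank (ResidueField 𝒪) (L p) := by simp [gap]
      omega
    calc ∑ l ∈ Smin', Module.finrank (ResidueField 𝒪) (L l) + c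
        ≤ ∑ l ∈ Smin', Module.finrank (ResidueField 𝒪) (L l) + ∑ l ∈ Smin', gap l :=
          Nat.add_le_add_left hle _
      _ = ∑ l ∈ Smin', (if l = p then 4 else 3) := by
          rw [← Finset.sum_add_distrib]
          exact Finset.sum_congr rfl fun l hl => Nat.add_sub_cancel' (hLdim l hl)
  have hlow : ∀ Q : Finset ℕ, Module.Finite (ResidueField 𝒪) (selmer rb Smin' Q A L) →
      3 ≤ Module.finrank (ResidueField 𝒪) (selmer rb Smin' Q A L) := fun Q hfin => by
    have hle : (sl2 (ResidueField 𝒪)).map (globalDelta rb) ≤ selmer rb Smin' Q A L := by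
      rintro _ ⟨X, hX, rfl⟩
      exact globalDelta_mem_selmer h hLB hX
    have hinj' : Function.Injective ((globalDelta rb).domRestrict (sl2 (ResidueField 𝒪))) := by
      rw [← LinearMap.ker_eq_bot, LinearMap.ker_eq_bot']
      intro X hX
      exact Subtype.ext (eq_zero_of_globalDelta h2 hirr X.2 hX)
    rw [← finrank_sl2 (k := ResidueField 𝒪), ← LinearMap.finrank_range_of_inj hinj',
      LinearMap.range_domRestrict]
    exact Submodule.finrank_mono hle
  obtain ⟨qv, -, hfin, hb⟩ := hsel 0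
  have h3 := hlow _ hfin
  refine ⟨r - c, by omega, fun n => ?_⟩
  obtain ⟨qv, hgood, hfin, hb⟩ := hsel n
  exact ⟨qv, hgood, hfin, by omega⟩

end FLTAgent.RT
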